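import Fermat.Agent.StarkOdlyzko.Monotone
import Fermat.Agent.HeckeDifferent.QuadraticField
import Mathlib.NumberTheory.Harmonic.GammaDeriv
import Mathlib.NumberTheory.Harmonic.EulerMascheroni
import Mathlib.Analysis.Calculus.Deriv.Slope
import Mathlib.Analysis.Calculus.LogDeriv

/-!
# Lower bounds for the discriminant

The logarithm of `x (x - 1) |d|^(x/2) Γℝ^r₁ Γℂ^r₂` increases on `(1, ∞)`: its derivative gives
Stark's inequality, and its difference quotient near `1` the asymptotic bound.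
-/

set_option autoImplicit false
set_option linter.unusedSectionVars false
set_option linter.style.haveILetI false

noncomputable section

universe u

open NumberField InfinitePlace Module Set Filter Topology
open scoped Real Classical
open Real (eulerMascheroniConstant)

namespace FA.StarkOdlyzko

/-- `log Γℝ`. -/
def logR (x : ℝ) : ℝ := -x / 2 * Real.log π + Real.log (Real.Gamma (x / 2))

/-- `log Γℂ`. -/
def logC (x : ℝ) : ℝ := Real.log 2 + (-x * Real.log (2 * π) + Real.log (Real.Gamma x))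

theorem log_gR {x : ℝ} (hx : 0 < x) : Real.log (gR x) = logR x := by
  rw [gR, Real.log_mul (Real.rpow_pos_of_pos Real.pi_pos _).ne' (Real.Gamma_pos_of_pos (by linarith)).ne',
    Real.log_rpow Real.pi_pos, logR]

theorem log_gC {x : ℝ} (hx : 0 < x) : Real.log (gC x) = logC x := by
  rw [gC, Real.log_mul (by positivity) (Real.Gamma_pos_of_pos hx).ne',
    Real.log_mul two_ne_zero (by positivity), Real.log_rpow (by positivity), logC, add_assoc]

theorem hasDerivAt_Gamma_of_pos {x : ℝ} (hx : 0 < x) :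
    HasDerivAt Real.Gamma (deriv Real.Gamma x) x :=
  (Real.differentiableAt_Gamma fun m => ((neg_nonpos.mpr m.cast_nonneg).trans_lt hx).ne').hasDerivAt

theorem hasDerivAt_logR {x : ℝ} (hx : 0 < x) :
    HasDerivAt logR ((logDeriv Real.Gamma (x / 2) - Real.log π) / 2) x := by
  have h1 : HasDerivAt (fun y : ℝ => y / 2) (1 / 2) x := (hasDerivAt_id x).div_const 2
  have hG := (hasDerivAt_Gamma_of_pos (show 0 < x / 2 by linarith)).comp x h1
  have h2 := hG.log (Real.Gamma_pos_of_pos (show 0 < x / 2 by linarith)).ne'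
  have h3 := (((hasDerivAt_id x).neg.div_const 2).mul_const (Real.log π)).add h2
  refine h3.congr_deriv ?_
  simp only [logDeriv_apply, Function.comp_apply]
  ring

theorem hasDerivAt_logC {x : ℝ} (hx : 0 < x) :
    HasDerivAt logC (logDeriv Real.Gamma x - Real.log (2 * π)) x := by
  have h2 := (hasDerivAt_Gamma_of_pos hx).log (Real.Gamma_pos_of_pos hx).ne'
  have h3 := (((hasDerivAt_id x).neg.mul_const (Real.log (2 * π))).add h2).const_add (Real.log 2)
  refine h3.congr_deriv ?_
  simp only [logDeriv_apply]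
  ring

/-- `log (4 π) + γ`. -/
def rateR : ℝ := Real.log (4 * π) + eulerMascheroniConstant

/-- `log (2 π) + γ`. -/
def rateC : ℝ := Real.log (2 * π) + eulerMascheroniConstant

theorem logDeriv_Gamma_half : logDeriv Real.Gamma (1 / 2) = -(eulerMascheroniConstant + 2 * Real.log 2) := by
  rw [logDeriv_apply, Real.hasDerivAt_Gamma_one_half.deriv, Real.Gamma_one_half_eq]
  field_simp

theorem hasDerivAt_logR_one : HasDerivAt logR (-rateR / 2) 1 := by
  refine (hasDerivAt_logR one_pos).congr_deriv ?_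
  rw [logDeriv_Gamma_half, rateR, show (4 : ℝ) * π = 2 * 2 * π by norm_num,
    Real.log_mul (by norm_num) Real.pi_ne_zero, Real.log_mul two_ne_zero two_ne_zero]
  ring

theorem hasDerivAt_logC_one : HasDerivAt logC (-rateC) 1 := by
  refine (hasDerivAt_logC one_pos).congr_deriv ?_
  rw [logDeriv_apply, Real.hasDerivAt_Gamma_one.deriv, Real.Gamma_one, rateC]
  ring

variable (K : Type u) [Field K] [NumberField K]

theorem log_polyGam {x : ℝ} (hx : 1 < x) :
    Real.log (polyGam K x) = Real.log x + Real.log (x - 1) +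
      (x / 2 * Real.log (((discr K).natAbs : ℕ) : ℝ) +
        (nrRealPlaces K * logR x + nrComplexPlaces K * logC x)) := by
  have hd : (0 : ℝ) < (((discr K).natAbs : ℕ) : ℝ) :=
    Nat.cast_pos.2 (Int.natAbs_pos.2 (discr_ne_zero K))
  have hR := gR_pos (show 0 < x by linarith)
  have hC := gC_pos (show 0 < x by linarith)
  have h0 : x ≠ 0 := by linarith
  have h1 : x - 1 ≠ 0 := by linarith
  have h2 : (((discr K).natAbs : ℕ) : ℝ) ^ (x / 2) ≠ 0 := (Real.rpow_pos_of_pos hd _).ne'
  have h3 : gR x ^ nrRealPlaces K * gC x ^ nrComplexPlaces K ≠ 0 :=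
    (mul_pos (pow_pos hR _) (pow_pos hC _)).ne'
  rw [polyGam, Real.log_mul (mul_ne_zero h0 h1) (mul_ne_zero h2 h3), Real.log_mul h0 h1,
    Real.log_mul h2 h3, Real.log_rpow hd, Real.log_mul (pow_pos hR _).ne' (pow_pos hC _).ne',
    Real.log_pow, Real.log_pow, log_gR (by linarith), log_gC (by linarith)]

/-- **Stark's inequality.** -/
theorem log_discr_ge {σ : ℝ} (hσ : 1 < σ) :
    nrRealPlaces K * (Real.log π - logDeriv Real.Gamma (σ / 2)) +
      2 * nrComplexPlaces K * (Real.log (2 * π) - logDeriv Real.Gamma σ) - 2 / σ - 2 / (σ - 1) ≤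
      Real.log |((discr K : ℤ) : ℝ)| := by
  set D := Real.log (((discr K).natAbs : ℕ) : ℝ)
  have hmono : MonotoneOn (fun x => Real.log x + Real.log (x - 1) +
      (x / 2 * D + (nrRealPlaces K * logR x + nrComplexPlaces K * logC x))) (Ioi 1) := by
    intro x hx y hy hxy
    have h := Real.log_le_log (polyGam_pos K hx) (monotoneOn_polyGam K hx hy hxy)
    rwa [log_polyGam K hx, log_polyGam K hy] at h
  have hd : HasDerivAt (fun x => Real.log x + Real.log (x - 1) +
      (x / 2 * D + (nrRealPlaces K * logR x + nrComplexPlaces K * logC x)))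
      (σ⁻¹ + 1 / (σ - 1) + (1 / 2 * D + (nrRealPlaces K * ((logDeriv Real.Gamma (σ / 2) - Real.log π) / 2) +
        nrComplexPlaces K * (logDeriv Real.Gamma σ - Real.log (2 * π))))) σ :=
    ((Real.hasDerivAt_log (by linarith)).add (((hasDerivAt_id σ).sub_const 1).log (by simp; linarith))).add
      ((((hasDerivAt_id σ).div_const 2).mul_const D).add
        (((hasDerivAt_logR (by linarith)).const_mul _).add ((hasDerivAt_logC (by linarith)).const_mul _)))
  have h0 := hd.hasDerivWithinAt.nonneg_of_monotoneOn (accPt_principal_iff_nhdsWithin.2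
    (show (𝓝[Ioi 1 \ {σ}] σ).NeBot by
      rw [Set.sdiff_eq, nhdsWithin_inter', nhdsWithin_eq_nhds.2 (Ioi_mem_nhds hσ)]
      have := (inferInstance : (𝓝[≠] σ).NeBot)
      simpa [nhdsWithin] using this)) hmono
  rw [show |((discr K : ℤ) : ℝ)| = (((discr K).natAbs : ℕ) : ℝ) by
    rw [← Int.cast_abs, ← Int.natCast_natAbs, Int.cast_natCast]]
  rw [div_eq_mul_inv 2 σ, div_eq_mul_inv 2 (σ - 1)]
  rw [one_div (σ - 1)] at h0
  show _ ≤ D
  linarith

/-- **The asymptotic bound**, logarithmic form. -/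
theorem exists_log_discr_ge {η : ℝ} (hη : 0 < η) :
    ∃ N : ℕ, ∀ (K : Type u) [Field K] [NumberField K], N ≤ finrank ℚ K →
      nrRealPlaces K * rateR + 2 * nrComplexPlaces K * rateC - η * finrank ℚ K ≤
        Real.log |((discr K : ℤ) : ℝ)| := by
  set η' := η / 6 with hη'
  have hη0 : 0 < η' := by positivity
  obtain ⟨τ, hτ1, hτR, hτC⟩ : ∃ τ : ℝ, 1 < τ ∧ slope logR 1 τ < -rateR / 2 + η' ∧
      slope logC 1 τ < -rateC + η' := by
    have hR := hasDerivAt_logR_one.tendsto_slope.mono_left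
      (nhdsWithin_mono (1 : ℝ) (fun x (hx : x ∈ Ioi (1 : ℝ)) => ne_of_gt hx))
    have hC := hasDerivAt_logC_one.tendsto_slope.mono_left
      (nhdsWithin_mono (1 : ℝ) (fun x (hx : x ∈ Ioi (1 : ℝ)) => ne_of_gt hx))
    obtain ⟨τ, h1, h2, h3⟩ := ((eventually_mem_nhdsWithin).and
      ((hR.eventually (eventually_lt_nhds (lt_add_of_pos_right _ hη0))).and
        (hC.eventually (eventually_lt_nhds (lt_add_of_pos_right _ hη0))))).exists
    exact ⟨τ, h1, h2, h3⟩
  obtain ⟨σ, hσ1, hστ, hσR, hσC⟩ : ∃ σ : ℝ, 1 < σ ∧ σ < τ ∧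
      (logR τ - logR σ) / (τ - σ) < -rateR / 2 + 2 * η' ∧
      (logC τ - logC σ) / (τ - σ) < -rateC + 2 * η' := by
    have hq : ∀ f : ℝ → ℝ, ContinuousAt f 1 →
        Tendsto (fun σ => (f τ - f σ) / (τ - σ)) (𝓝[>] 1) (𝓝 ((f τ - f 1) / (τ - 1))) := fun f hf =>
      ((continuousAt_const.sub hf).div (continuousAt_const.sub continuousAt_id) (by simp; linarith)).tendsto.mono_left
        nhdsWithin_le_nhds
    have h1 : (logR τ - logR 1) / (τ - 1) < -rateR / 2 + 2 * η' := by
      rw [slope_def_field] at hτR; linarith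
    have h2 : (logC τ - logC 1) / (τ - 1) < -rateC + 2 * η' := by
      rw [slope_def_field] at hτC; linarith
    obtain ⟨σ, h, hlt, hR, hC⟩ := ((eventually_mem_nhdsWithin).and
      (((eventually_lt_nhds hτ1).filter_mono nhdsWithin_le_nhds).and
        (((hq _ hasDerivAt_logR_one.continuousAt).eventually (eventually_lt_nhds h1)).and
          ((hq _ hasDerivAt_logC_one.continuousAt).eventually (eventually_lt_nhds h2))))).exists
    exact ⟨σ, h, hlt, hR, hC⟩
  set c := 2 * ((Real.log τ + Real.log (τ - 1)) - (Real.log σ + Real.log (σ - 1))) / (τ - σ) with hc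
  obtain ⟨N, hN⟩ := exists_nat_ge (c / η')
  refine ⟨N, fun K _ _ hn => ?_⟩
  set D := Real.log |((discr K : ℤ) : ℝ)| with hD
  set n := (finrank ℚ K : ℝ)
  have hcn : c ≤ η' * n := by
    have h := hN.trans (Nat.cast_le.2 hn)
    rw [div_le_iff₀ hη0] at h
    linarith
  have h := Real.log_le_log (polyGam_pos K hσ1)
    (monotoneOn_polyGam K hσ1 (hσ1.trans hστ) hστ.le)
  rw [log_polyGam K hσ1, log_polyGam K (hσ1.trans hστ),
    show (((discr K).natAbs : ℕ) : ℝ) = |((discr K : ℤ) : ℝ)| by
      rw [← Int.cast_abs, ← Int.natCast_natAbs, Int.cast_natCast], ← hD] at h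
  have hpos : 0 < τ - σ := sub_pos.2 hστ
  rw [div_lt_iff₀ hpos] at hσR hσC
  have hplaces : (nrRealPlaces K : ℝ) + 2 * nrComplexPlaces K = n := by
    show _ = ((finrank ℚ K : ℕ) : ℝ)
    exact_mod_cast card_add_two_mul_card_eq_rank K
  have hr : (0 : ℝ) ≤ nrRealPlaces K := Nat.cast_nonneg _
  have hs : (0 : ℝ) ≤ nrComplexPlaces K := Nat.cast_nonneg _
  have hR' := mul_le_mul_of_nonneg_left hσR.le hr
  have hC' := mul_le_mul_of_nonneg_left hσC.le hs
  have hc' : c * (τ - σ) = 2 * ((Real.log τ + Real.log (τ - 1)) - (Real.log σ + Real.log (σ - 1))) :=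
    div_mul_cancel₀ _ hpos.ne'
  have key : 0 ≤ (τ - σ) * (D - nrRealPlaces K * rateR - 2 * nrComplexPlaces K * rateC +
      4 * η' * (nrRealPlaces K + nrComplexPlaces K) + c) := by
    linarith
  nlinarith [(mul_nonneg_iff_of_pos_left hpos).1 key]

/-- `(4 π e^γ)^(r₁/n) (2 π e^γ)^(2 r₂/n)`. -/
def starkConst : ℝ :=
  (4 * π * Real.exp eulerMascheroniConstant) ^ ((nrRealPlaces K : ℝ) / finrank ℚ K) *
    (2 * π * Real.exp eulerMascheroniConstant) ^ (2 * (nrComplexPlaces K : ℝ) / finrank ℚ K)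

/-- **The bound for the root discriminant.** -/
theorem exists_rootDiscr_ge {ε : ℝ} (hε : 0 < ε) :
    ∃ N : ℕ, ∀ (K : Type u) [Field K] [NumberField K], N ≤ finrank ℚ K →
      starkConst K - ε ≤ |((discr K : ℤ) : ℝ)| ^ ((finrank ℚ K : ℝ)⁻¹) := by
  obtain ⟨N, hN⟩ := exists_log_discr_ge.{u} (show 0 < ε / Real.exp rateR by positivity)
  refine ⟨N, fun K _ _ hn => ?_⟩
  set n := (finrank ℚ K : ℝ)
  have hn0 : 0 < n := Nat.cast_pos.2 finrank_pos
  have hd : 0 < |((discr K : ℤ) : ℝ)| := abs_pos.2 (Int.cast_ne_zero.2 (discr_ne_zero K))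
  set A := (nrRealPlaces K * rateR + 2 * nrComplexPlaces K * rateC) / n
  have hX : starkConst K = Real.exp A := by
    rw [starkConst, Real.rpow_def_of_pos (by positivity), Real.rpow_def_of_pos (by positivity),
      ← Real.exp_add, Real.log_mul (by positivity) (Real.exp_pos _).ne', Real.log_exp,
      Real.log_mul (x := 2 * π) (by positivity) (Real.exp_pos _).ne', Real.log_exp]
    refine congrArg Real.exp ?_
    simp only [A, rateR, rateC]
    ring
  have hAR : A ≤ rateR := by
    have hplaces : (nrRealPlaces K : ℝ) + 2 * nrComplexPlaces K = n := by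
      show _ = ((finrank ℚ K : ℕ) : ℝ)
      exact_mod_cast card_add_two_mul_card_eq_rank K
    have hle : rateC ≤ rateR :=
      add_le_add (Real.log_le_log (by positivity) (by linarith [Real.pi_pos])) le_rfl
    rw [div_le_iff₀ hn0, ← hplaces]
    nlinarith [(Nat.cast_nonneg _ : (0 : ℝ) ≤ nrComplexPlaces K)]
  have h := hN K hn
  have h2 : A - ε / Real.exp rateR ≤ Real.log |((discr K : ℤ) : ℝ)| * n⁻¹ := by
    rw [← div_eq_mul_inv, le_div_iff₀ hn0, sub_mul, div_mul_cancel₀ _ hn0.ne']
    linarith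
  rw [hX, Real.rpow_def_of_pos hd]
  refine le_trans ?_ (Real.exp_le_exp.2 h2)
  have h3 : 1 - ε / Real.exp rateR ≤ Real.exp (-(ε / Real.exp rateR)) := by
    linarith [Real.add_one_le_exp (-(ε / Real.exp rateR))]
  have h4 := mul_le_mul_of_nonneg_left h3 (Real.exp_pos A).le
  rw [← Real.exp_add, ← sub_eq_add_neg] at h4
  refine le_trans ?_ h4
  have h5 : Real.exp A * (ε / Real.exp rateR) ≤ ε := by
    rw [mul_div_assoc', div_le_iff₀ (Real.exp_pos _), mul_comm ε]
    exact mul_le_mul_of_nonneg_right (Real.exp_le_exp.2 hAR) hε.le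
  linarith

theorem starkConst_real [IsTotallyReal K] :
    starkConst K = 4 * π * Real.exp eulerMascheroniConstant := by
  have h2 : nrComplexPlaces K = 0 := IsTotallyReal.nrComplexPlaces_eq_zero K
  have h1 : (nrRealPlaces K : ℝ) = finrank ℚ K := by
    exact_mod_cast (show nrRealPlaces K = finrank ℚ K by
      have := card_add_two_mul_card_eq_rank K; omega)
  have hn : (finrank ℚ K : ℝ) ≠ 0 := Nat.cast_ne_zero.2 finrank_pos.ne'
  rw [starkConst, h1, h2, Nat.cast_zero, mul_zero, zero_div, Real.rpow_zero, mul_one, div_self hn,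
    Real.rpow_one]

theorem starkConst_complex [IsTotallyComplex K] :
    starkConst K = 2 * π * Real.exp eulerMascheroniConstant := by
  have h2 : nrRealPlaces K = 0 := IsTotallyComplex.nrRealPlaces_eq_zero K
  have h1 : 2 * (nrComplexPlaces K : ℝ) = finrank ℚ K := by
    exact_mod_cast (show 2 * nrComplexPlaces K = finrank ℚ K by
      have := card_add_two_mul_card_eq_rank K; omega)
  have hn : (finrank ℚ K : ℝ) ≠ 0 := Nat.cast_ne_zero.2 finrank_pos.ne'
  rw [starkConst, h1, h2, Nat.cast_zero, zero_div, Real.rpow_zero, one_mul, div_self hn, Real.rpow_one]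

theorem numeric_lower :
    (20 : ℝ) < 4 * π * Real.exp eulerMascheroniConstant ∧
      (10 : ℝ) < 2 * π * Real.exp eulerMascheroniConstant := by
  have h1 : (1.625 : ℝ) ≤ Real.exp eulerMascheroniConstant :=
    le_trans (le_trans (by norm_num) (Real.quadratic_le_exp_of_nonneg (x := 1 / 2) (by norm_num)))
      (Real.exp_le_exp.2 Real.one_half_lt_eulerMascheroniConstant.le)
  constructor <;> nlinarith [Real.pi_gt_d2]

/-- **Bounded unramified extensions**: a field with root discriminant below the bound has only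
Galois extensions of bounded degree that are unramified at all places. -/
theorem exists_unramified_degree_bound
    (h : |((discr K : ℤ) : ℝ)| ^ ((finrank ℚ K : ℝ)⁻¹) < starkConst K) :
    ∃ B : ℕ, ∀ (L : Type u) [Field L] [NumberField L] [Algebra K L] [IsGalois K L]
      [Algebra.Unramified (𝓞 K) (𝓞 L)] [IsUnramifiedAtInfinitePlaces K L], finrank K L ≤ B := by
  set δ := starkConst K - |((discr K : ℤ) : ℝ)| ^ ((finrank ℚ K : ℝ)⁻¹) with hδ
  obtain ⟨N, hN⟩ := exists_rootDiscr_ge.{u} (show 0 < δ / 2 by linarith)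
  refine ⟨N, fun L _ _ _ _ _ _ => not_lt.1 fun hlt => ?_⟩
  haveI : FiniteDimensional K L := Module.Finite.of_restrictScalars_finite ℚ K L
  set m := finrank K L
  have hm : 0 < m := finrank_pos
  have hfin : finrank ℚ L = finrank ℚ K * m := (Module.finrank_mul_finrank ℚ K L).symm
  obtain ⟨hr, hc⟩ := FA.HeckeDiff.places_of_unramified (K := K) (L := L) fun w => w.isUnramifiedIn L
  have hconst : starkConst L = starkConst K := by
    have hm' : (m : ℝ) ≠ 0 := Nat.cast_ne_zero.2 hm.ne'
    rw [starkConst, starkConst, hr, hc, hfin, Nat.cast_mul, Nat.cast_mul, Nat.cast_mul,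
      mul_div_mul_right _ _ hm', ← mul_assoc 2, mul_div_mul_right _ _ hm']
  have hroot : |((discr L : ℤ) : ℝ)| ^ ((finrank ℚ L : ℝ)⁻¹) =
      |((discr K : ℤ) : ℝ)| ^ ((finrank ℚ K : ℝ)⁻¹) := by
    have hd := FA.HeckeDiff.natAbs_discr_of_unramified (K := K) (L := L)
    rw [← Int.cast_abs, ← Int.cast_abs, ← Int.natCast_natAbs, ← Int.natCast_natAbs, Int.cast_natCast,
      Int.cast_natCast, hd, hfin, Nat.cast_pow, Nat.cast_mul, ← Real.rpow_natCast,
      ← Real.rpow_mul (Nat.cast_nonneg _)]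
    congr 1
    field_simp
    rfl
  have hN' := hN L (by
    rw [hfin]
    exact hlt.le.trans (Nat.le_mul_of_pos_left _ finrank_pos))
  rw [hconst, hroot] at hN'
  linarith

end FA.StarkOdlyzko
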