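import Fermat.Agent.HeckeBS.Orbit
import Fermat.Agent.AbelianZeta.Euler

/-!
# Monotonicity of the completed zeta function

The theta integral makes `zetaXiR` symmetric about `1/2` and increasing to the right of it, so
`xiR` is increasing on `[1, ∞)`; as `ζ` decreases there, `x (x - 1) |d|^(x/2) Γℝ^r₁ Γℂ^r₂` is
increasing on `(1, ∞)`.
-/

set_option autoImplicit false
set_option linter.unusedSectionVars false

noncomputable section

open NumberField InfinitePlace Complex MeasureTheory Set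
open FA.HeckeFE FA.HeckeBS
open scoped Real nonZeroDivisors Classical

namespace FA.StarkOdlyzko

variable {K : Type*} [Field K] [NumberField K]

theorem rpow_pair_le {t : ℝ} (ht : 0 < t) {x y : ℝ} (hx : 1 / 2 ≤ x) (hxy : x ≤ y) :
    t ^ (x / 2 - 1) + t ^ ((1 - x) / 2 - 1) ≤ t ^ (y / 2 - 1) + t ^ ((1 - y) / 2 - 1) := by
  have h : ∀ z : ℝ, t ^ (z / 2 - 1) + t ^ ((1 - z) / 2 - 1) =
      2 * t ^ (-3 / 4 : ℝ) * Real.cosh (Real.log t * ((z - 1 / 2) / 2)) := fun z => by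
    simp only [Real.rpow_def_of_pos ht, Real.cosh_eq]
    rw [mul_div_assoc', eq_div_iff two_ne_zero, mul_add,
      mul_assoc 2 _ (Real.exp (Real.log t * ((z - 1 / 2) / 2))), ← Real.exp_add,
      mul_assoc 2 _ (Real.exp (-(Real.log t * ((z - 1 / 2) / 2)))), ← Real.exp_add]
    ring_nf
  rw [h x, h y]
  refine mul_le_mul_of_nonneg_left (Real.cosh_le_cosh.2 ?_) (by positivity)
  rw [abs_mul, abs_mul, abs_of_nonneg (by linarith : (0 : ℝ) ≤ (x - 1 / 2) / 2),
    abs_of_nonneg (by linarith : (0 : ℝ) ≤ (y - 1 / 2) / 2)]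
  exact mul_le_mul_of_nonneg_left (by linarith) (abs_nonneg _)

theorem classXiR_pair_le (C : ClassGroup (𝓞 K)) {x y : ℝ} (hx : 1 / 2 ≤ x) (hxy : x ≤ y) :
    classXiR C x + classXiR C (1 - x) ≤ classXiR C y + classXiR C (1 - y) := by
  simp only [classXiR, ← mul_add]
  refine mul_le_mul_of_nonneg_left ?_ normConst_pos.le
  rw [← integral_add (integrableOn_phi _ _) (integrableOn_phi _ _),
    ← integral_add (integrableOn_phi _ _) (integrableOn_phi _ _)]
  refine setIntegral_mono_on ((integrableOn_phi _ _).add (integrableOn_phi _ _))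
    ((integrableOn_phi _ _).add (integrableOn_phi _ _)) measurableSet_Ioi fun t ht => ?_
  rw [← add_mul, ← add_mul]
  exact mul_le_mul_of_nonneg_right (rpow_pair_le ht hx hxy) (phi_nonneg _ _)

theorem zetaXiR_one_sub (x : ℝ) : zetaXiR K (1 - x) = zetaXiR K x := by
  have h := zetaXi_one_sub (K := K) (x : ℂ)
  rw [show (1 : ℂ) - x = ((1 - x : ℝ) : ℂ) by push_cast; rfl, zetaXi_ofReal, zetaXi_ofReal] at h
  exact_mod_cast h

theorem zetaXiR_mono {x y : ℝ} (hx : 1 / 2 ≤ x) (hxy : x ≤ y) : zetaXiR K x ≤ zetaXiR K y := by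
  have h := Finset.sum_le_sum fun C (_ : C ∈ (Finset.univ : Finset (ClassGroup (𝓞 K)))) =>
    classXiR_pair_le C hx hxy
  rw [Finset.sum_add_distrib, Finset.sum_add_distrib] at h
  have h' : zetaXiR K x + zetaXiR K (1 - x) ≤ zetaXiR K y + zetaXiR K (1 - y) := h
  rw [zetaXiR_one_sub, zetaXiR_one_sub] at h'
  linarith

theorem xiR_mono {x y : ℝ} (hx : 1 ≤ x) (hxy : x ≤ y) : xiR K x ≤ xiR K y := by
  rw [xiR, xiR]
  have := zetaXiR_mono (K := K) (by linarith : 1 / 2 ≤ x) hxy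
  have := zetaXiR_nonneg (K := K) x
  gcongr <;> nlinarith

variable (K)

/-- The zeta function at a real point. -/
def zetaR (x : ℝ) : ℝ := ∑' I : (Ideal (𝓞 K))⁰, FA.Ext.zN x I

theorem summable_zN {x : ℝ} (hx : 1 < x) : Summable fun I : (Ideal (𝓞 K))⁰ => FA.Ext.zN x I :=
  (FA.AbelianZeta.summable_norm_normPow (s := (x : ℂ)) (by simpa using hx)).congr fun I => by
    rw [FA.AbelianZeta.norm_normPow, ofReal_re]

theorem dedekindZeta_ofReal {x : ℝ} (hx : 1 < x) : dedekindZeta K x = (zetaR K x : ℂ) := by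
  rw [FA.AbelianZeta.dedekindZeta_eq_tsum (by simpa using hx), zetaR, ofReal_tsum]
  refine tsum_congr fun I => ?_
  show ((Ideal.absNorm I.1 : ℕ) : ℂ) ^ (-(x : ℂ)) = _
  rw [FA.Ext.zN, ofReal_cpow (Nat.cast_nonneg _)]
  push_cast
  rfl

theorem zetaR_pos {x : ℝ} (hx : 1 < x) : 0 < zetaR K x :=
  (summable_zN K hx).tsum_pos (fun I => FA.Ext.zN_nonneg x I) 1 (by
    simp [FA.Ext.zN, Ideal.one_eq_top])

theorem zetaR_anti {x y : ℝ} (hx : 1 < x) (hxy : x ≤ y) : zetaR K y ≤ zetaR K x := by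
  refine (summable_zN K (hx.trans_le hxy)).tsum_le_tsum (fun I => ?_) (summable_zN K hx)
  refine Real.rpow_le_rpow_of_exponent_le (Nat.one_le_cast.2 (Nat.one_le_iff_ne_zero.2 ?_)) (neg_le_neg hxy)
  rw [ne_eq, Ideal.absNorm_eq_zero_iff]
  exact nonZeroDivisors.coe_ne_zero I

/-- `π^(-x/2) Γ(x/2)`. -/
def gR (x : ℝ) : ℝ := π ^ (-x / 2) * Real.Gamma (x / 2)

/-- `2 (2 π)^(-x) Γ(x)`. -/
def gC (x : ℝ) : ℝ := 2 * (2 * π) ^ (-x) * Real.Gamma x

theorem Gammaℝ_ofReal' (x : ℝ) : Gammaℝ x = (gR x : ℂ) := by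
  rw [Gammaℝ_def, gR, ofReal_mul, ofReal_cpow Real.pi_pos.le, ← Complex.Gamma_ofReal]
  push_cast
  rfl

theorem Gammaℂ_ofReal' (x : ℝ) : Gammaℂ x = (gC x : ℂ) := by
  rw [Gammaℂ_def, gC, ofReal_mul, ofReal_mul, ofReal_cpow (by positivity), ← Complex.Gamma_ofReal]
  push_cast
  rfl

theorem gR_pos {x : ℝ} (hx : 0 < x) : 0 < gR x :=
  mul_pos (Real.rpow_pos_of_pos Real.pi_pos _) (Real.Gamma_pos_of_pos (by linarith))

theorem gC_pos {x : ℝ} (hx : 0 < x) : 0 < gC x :=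
  mul_pos (mul_pos two_pos (Real.rpow_pos_of_pos (by positivity) _)) (Real.Gamma_pos_of_pos hx)

/-- `x (x - 1) |d|^(x/2) Γℝ(x)^r₁ Γℂ(x)^r₂`. -/
def polyGam (x : ℝ) : ℝ :=
  x * (x - 1) *
    ((((discr K).natAbs : ℕ) : ℝ) ^ (x / 2) * (gR x ^ nrRealPlaces K * gC x ^ nrComplexPlaces K))

theorem polyGam_pos {x : ℝ} (hx : 1 < x) : 0 < polyGam K x := by
  have hd : (0 : ℝ) < (((discr K).natAbs : ℕ) : ℝ) :=
    Nat.cast_pos.2 (Int.natAbs_pos.2 (discr_ne_zero K))
  refine mul_pos (mul_pos (by linarith) (by linarith)) (mul_pos (Real.rpow_pos_of_pos hd _) (mul_pos ?_ ?_))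
  · exact pow_pos (gR_pos (by linarith)) _
  · exact pow_pos (gC_pos (by linarith)) _

theorem xiR_eq {x : ℝ} (hx : 1 < x) : xiR K x = polyGam K x * zetaR K x := by
  have h := xiFun_half K (s := (x : ℂ)) (by simpa using hx)
  rw [xiFun_ofReal, dedekindZeta_ofReal K hx, gamFac, Gammaℝ_ofReal', Gammaℂ_ofReal', ← ofReal_natCast,
    show (x : ℂ) / 2 = ((x / 2 : ℝ) : ℂ) by push_cast; rfl,
    ← ofReal_cpow (Nat.cast_nonneg _)] at h
  rw [polyGam, mul_assoc]
  apply ofReal_injective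
  rw [h]
  push_cast
  ring

/-- **The factor at infinity increases.** -/
theorem monotoneOn_polyGam : MonotoneOn (polyGam K) (Ioi 1) := by
  intro x hx y hy hxy
  have h := xiR_mono (K := K) (le_of_lt hx) hxy
  rw [xiR_eq K hx, xiR_eq K hy] at h
  refine le_of_mul_le_mul_right (h.trans ?_) (zetaR_pos K hx)
  exact mul_le_mul_of_nonneg_left (zetaR_anti K hx hxy) (polyGam_pos K hy).le

end FA.StarkOdlyzko
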